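/-
S48 (Deligne–Serre), seat FV (helper67), file 1: every ring automorphism of a subfield of `ℂ`
extends to a ring automorphism of `ℂ`.
-/
import Mathlib

set_option autoImplicit false

noncomputable section

namespace Fermat.Agent.S48.FV

/-- Every ring automorphism of a subfield `K` of an algebraically closed field `L` extends to a
ring automorphism of `L`. -/
theorem exists_ringEquiv_extends {F L : Type} [Field F] [Field L] [Algebra F L] [IsAlgClosed L]
    (K : IntermediateField F L) (σ : K ≃+* K) :
    ∃ τ : L ≃+* L, ∀ x : K, τ (x : L) = (σ x : L) := by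
  obtain ⟨ι, v, hv⟩ := exists_isTranscendenceBasis' K L
  haveI : IsAlgClosure (Algebra.adjoin K (Set.range v)) L :=
    IsAlgClosed.isAlgClosure_of_transcendence_basis v hv
  let e0 : MvPolynomial ι K ≃ₐ[K] Algebra.adjoin K (Set.range v) := hv.1.aevalEquiv
  let θ : Algebra.adjoin K (Set.range v) ≃+* Algebra.adjoin K (Set.range v) :=
    e0.symm.toRingEquiv.trans ((MvPolynomial.mapEquiv ι σ).trans e0.toRingEquiv)
  refine ⟨IsAlgClosure.equivOfEquiv L L θ, fun x => ?_⟩
  have h1 := IsAlgClosure.equivOfEquiv_algebraMap L L θ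
    (algebraMap K (Algebra.adjoin K (Set.range v)) x)
  have h2 : θ (algebraMap K (Algebra.adjoin K (Set.range v)) x)
      = algebraMap K (Algebra.adjoin K (Set.range v)) (σ x) := by
    show e0 ((MvPolynomial.mapEquiv ι σ) (e0.symm (algebraMap K _ x))) = _
    rw [AlgEquiv.commutes, MvPolynomial.algebraMap_eq, MvPolynomial.mapEquiv_apply,
      MvPolynomial.map_C, ← MvPolynomial.algebraMap_eq, AlgEquiv.commutes]
    rfl
  rw [h2] at h1
  exact h1

end Fermat.Agent.S48.FV
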