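/-
S48 (Deligne–Serre), seat FV (helper67), file 2: Northcott in the form used by FV.

For a finite dimensional subfield `K` of `ℂ` there are a normal finite dimensional subfield
`K' ⊇ K` and finitely many ring automorphisms `τ i` of `ℂ` such that, for every `c`, the set of
algebraic integers `a ∈ K` with `‖τ i a‖ ^ 2 < c` for all `i` is finite.
-/
import Fermat.Agent.S48.FV.AutExt

set_option autoImplicit false

noncomputable section

namespace Fermat.Agent.S48.FV

open IntermediateField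

/-- **Northcott**, automorphism form. -/
theorem exists_auts_northcott (K : IntermediateField ℚ ℂ) [FiniteDimensional ℚ K] :
    ∃ (ι : Type) (_ : Fintype ι) (_ : Nonempty ι) (τ : ι → (ℂ ≃+* ℂ)), ∀ c : ℝ,
      {a : ℂ | a ∈ K ∧ IsIntegral ℤ a ∧ ∀ i, ‖τ i a‖ ^ 2 < c}.Finite := by
  classical
  -- the normal closure
  have hsplit : ∀ x : K, ((minpoly ℚ x).map (algebraMap ℚ ℂ)).Splits := fun x =>
    IsAlgClosed.splits _
  haveI hnc : IsNormalClosure ℚ K (normalClosure ℚ K ℂ) :=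
    Algebra.IsAlgebraic.isNormalClosure_normalClosure hsplit
  haveI hnormal : Normal ℚ (normalClosure ℚ K ℂ) := IsNormalClosure.normal (K := K)
  haveI hfd : FiniteDimensional ℚ (normalClosure ℚ K ℂ) := normalClosure.is_finiteDimensional ℚ K ℂ
  haveI hnf : NumberField (normalClosure ℚ K ℂ) :=
    { to_charZero := inferInstance, to_finiteDimensional := hfd }
  have hle : K ≤ normalClosure ℚ K ℂ := le_normalClosure K
  -- extensions of the automorphisms
  have hext : ∀ σ : (normalClosure ℚ K ℂ) ≃ₐ[ℚ] (normalClosure ℚ K ℂ),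
      ∃ τ : ℂ ≃+* ℂ, ∀ x : normalClosure ℚ K ℂ, τ (x : ℂ) = (σ x : ℂ) := fun σ =>
    exists_ringEquiv_extends (normalClosure ℚ K ℂ) σ.toRingEquiv
  choose τ hτ using hext
  refine ⟨(normalClosure ℚ K ℂ) ≃ₐ[ℚ] (normalClosure ℚ K ℂ), inferInstance, ⟨AlgEquiv.refl⟩, τ,
    fun c => ?_⟩
  have hfin := NumberField.Embeddings.finite_of_norm_le (normalClosure ℚ K ℂ) ℂ (Real.sqrt c)
  refine (hfin.image (fun x : normalClosure ℚ K ℂ => (x : ℂ))).subset ?_
  rintro a ⟨haK, haint, hac⟩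
  refine ⟨⟨a, hle haK⟩, ⟨?_, ?_⟩, rfl⟩
  · exact (isIntegral_algebraMap_iff
      (algebraMap (normalClosure ℚ K ℂ) ℂ).injective).mp haint
  · intro φ
    -- `φ` is an automorphism of the normal closure
    let φ' : (normalClosure ℚ K ℂ) →ₐ[ℚ] ℂ := φ.toRatAlgHom
    let σ : (normalClosure ℚ K ℂ) ≃ₐ[ℚ] (normalClosure ℚ K ℂ) :=
      φ'.restrictNormal' (normalClosure ℚ K ℂ)
    have h1 : ((σ ⟨a, hle haK⟩ : normalClosure ℚ K ℂ) : ℂ) = φ ⟨a, hle haK⟩ :=
      AlgHom.restrictNormal_commutes φ' (normalClosure ℚ K ℂ) ⟨a, hle haK⟩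
    have h2 : τ σ a = φ ⟨a, hle haK⟩ := by
      rw [← h1]
      exact hτ σ ⟨a, hle haK⟩
    rw [← h2]
    have h3 := hac σ
    have h4 : 0 ≤ c := le_trans (sq_nonneg _) h3.le
    exact Real.le_sqrt_of_sq_le h3.le

end Fermat.Agent.S48.FV
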